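/-
S16, (U)-P via the `E₄`-trace identity (helper97): pure arithmetic core (Mathlib only).

From the two coefficient identities (`n = 1, 2`) of
`p⁴ · H(q) · E₄(q^p) - U_p((U_p H) · E₄) = (p⁴ - 1) · h₀ · E₆`
for an integral `H` with `h₀ = p - 1` and `p ∣ h_k` (`k ≥ 1`) we get `p ∣ 24`.
-/
import Mathlib

set_option autoImplicit false

namespace Fermat.Agent.S16.UpE4_97

open Finset

/-- `σ₃` with values in `ℤ`. -/
def sig3 (n : ℕ) : ℤ := ∑ d ∈ n.divisors, (d : ℤ) ^ 3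

/-- `σ₅` with values in `ℤ`. -/
def sig5 (n : ℕ) : ℤ := ∑ d ∈ n.divisors, (d : ℤ) ^ 5

/-- Coefficients of `E₄`. -/
def c4 (n : ℕ) : ℤ := if n = 0 then 1 else 240 * sig3 n

/-- Coefficients of `E₆`. -/
def c6 (n : ℕ) : ℤ := if n = 0 then 1 else -504 * sig5 n

theorem sig3_prime {p : ℕ} (hp : p.Prime) : sig3 p = 1 + (p : ℤ) ^ 3 := by
  unfold sig3
  rw [Nat.Prime.divisors hp, Finset.sum_pair hp.one_lt.ne]
  simp

theorem sig3_two_mul_prime {p : ℕ} (hp : p.Prime) (hp2 : p ≠ 2) :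
    sig3 (2 * p) = 9 * (1 + (p : ℤ) ^ 3) := by
  have hcop : Nat.Coprime 2 p := by
    rw [Nat.coprime_primes Nat.prime_two hp]; exact fun h => hp2 h.symm
  have h := ArithmeticFunction.isMultiplicative_sigma (k := 3) |>.map_mul_of_coprime hcop
  have h2 : ArithmeticFunction.sigma 3 2 = 9 := by decide
  have hpp : ArithmeticFunction.sigma 3 p = 1 + p ^ 3 := by
    rw [ArithmeticFunction.sigma_apply, Nat.Prime.divisors hp, Finset.sum_pair hp.one_lt.ne]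
    simp
  have hcast : ∀ n : ℕ, sig3 n = ((ArithmeticFunction.sigma 3 n : ℕ) : ℤ) := by
    intro n
    rw [ArithmeticFunction.sigma_apply]
    unfold sig3
    push_cast
    rfl
  rw [hcast, h, h2, hpp]
  push_cast
  ring

theorem sig5_one : sig5 1 = 1 := by
  unfold sig5; simp

theorem sig5_two : sig5 2 = 33 := by
  unfold sig5
  rw [Nat.Prime.divisors Nat.prime_two, Finset.sum_pair (by norm_num)]
  norm_num

/-- The sum over the antidiagonal of `p * n` is congruent to its `(0, p n)` term. -/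
theorem sum_antidiagonal_modEq {p : ℕ} (h : ℕ → ℤ) (hk : ∀ k, 1 ≤ k → (p : ℤ) ∣ h k)
    (hp0 : p ≠ 0) (e : ℕ → ℤ) (m : ℕ) :
    (p : ℤ) ∣ (∑ x ∈ antidiagonal m, h (p * x.1) * e x.2) - h 0 * e m := by
  have hmem : (0, m) ∈ antidiagonal m := by simp
  rw [← Finset.add_sum_erase _ _ hmem]
  simp only [mul_zero]
  rw [add_sub_cancel_left]
  refine Finset.dvd_sum fun x hx => ?_
  have hx1 : x.1 ≠ 0 := by
    intro h0
    have hx' := Finset.mem_erase.mp hx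
    have hsum : x.1 + x.2 = m := by simpa using hx'.2
    apply hx'.1
    ext
    · simpa using h0
    · simp only; omega
  have : 1 ≤ p * x.1 := Nat.one_le_iff_ne_zero.mpr (Nat.mul_ne_zero hp0 hx1)
  exact Dvd.dvd.mul_right (hk _ this) _

/-- One coefficient identity gives `p ∣ c4 (p n) - c6 n`. -/
theorem dvd_of_identity {p : ℕ} (hp0 : p ≠ 0) (h : ℕ → ℤ) (h0 : h 0 = (p : ℤ) - 1)
    (hk : ∀ k, 1 ≤ k → (p : ℤ) ∣ h k) (n : ℕ) (A : ℤ)
    (hid : (p : ℤ) ^ 4 * A - ∑ x ∈ antidiagonal (p * n), h (p * x.1) * c4 x.2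
      = ((p : ℤ) ^ 4 - 1) * ((p : ℤ) - 1) * c6 n) :
    (p : ℤ) ∣ c4 (p * n) - c6 n := by
  obtain ⟨t, ht⟩ := sum_antidiagonal_modEq h hk hp0 c4 (p * n)
  rw [h0] at ht
  refine ⟨t + c4 (p * n) - (p : ℤ) ^ 3 * A + (p : ℤ) ^ 4 * c6 n - (p : ℤ) ^ 3 * c6 n - c6 n, ?_⟩
  linear_combination hid + ht

/-- **Arithmetic core of (U)-P**: the two identities `n = 1, 2` are contradictory for `p ≥ 5`. -/
theorem false_of_identities {p : ℕ} (hp : p.Prime) (hp5 : 5 ≤ p) (h : ℕ → ℤ)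
    (h0 : h 0 = (p : ℤ) - 1) (hk : ∀ k, 1 ≤ k → (p : ℤ) ∣ h k) (A₁ A₂ : ℤ)
    (hid₁ : (p : ℤ) ^ 4 * A₁ - ∑ x ∈ antidiagonal (p * 1), h (p * x.1) * c4 x.2
      = ((p : ℤ) ^ 4 - 1) * ((p : ℤ) - 1) * c6 1)
    (hid₂ : (p : ℤ) ^ 4 * A₂ - ∑ x ∈ antidiagonal (p * 2), h (p * x.1) * c4 x.2
      = ((p : ℤ) ^ 4 - 1) * ((p : ℤ) - 1) * c6 2) : False := by
  have hp0 : p ≠ 0 := hp.ne_zero
  have hp2 : p ≠ 2 := by omega
  have d1 := dvd_of_identity hp0 h h0 hk 1 A₁ hid₁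
  have d2 := dvd_of_identity hp0 h h0 hk 2 A₂ hid₂
  have e1 : c4 (p * 1) - c6 1 = 744 + 240 * (p : ℤ) ^ 3 := by
    have : p * 1 ≠ 0 := by simpa using hp0
    rw [c4, c6, if_neg this, if_neg one_ne_zero, mul_one, sig3_prime hp, sig5_one]
    ring
  have e2 : c4 (p * 2) - c6 2 = 18792 + 2160 * (p : ℤ) ^ 3 := by
    have : p * 2 ≠ 0 := by omega
    rw [c4, c6, if_neg this, if_neg two_ne_zero, mul_comm p 2, sig3_two_mul_prime hp hp2, sig5_two]
    ring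
  rw [e1] at d1
  rw [e2] at d2
  have d1' : (p : ℤ) ∣ 744 := by
    have : (p : ℤ) ∣ 240 * (p : ℤ) ^ 3 := Dvd.intro_left _ (by ring : 240 * (p : ℤ) ^ 2 * p = _)
    exact (Int.dvd_add_left this).mp d1
  have d2' : (p : ℤ) ∣ 18792 := by
    have : (p : ℤ) ∣ 2160 * (p : ℤ) ^ 3 := Dvd.intro_left _ (by ring : 2160 * (p : ℤ) ^ 2 * p = _)
    exact (Int.dvd_add_left this).mp d2
  have d24 : (p : ℤ) ∣ 24 := by
    have h192 : (p : ℤ) ∣ 192 := by
      have : (192 : ℤ) = 18792 - 744 * 25 := by norm_num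
      rw [this]; exact Int.dvd_sub d2' (Dvd.dvd.mul_right d1' 25)
    have h168 : (p : ℤ) ∣ 168 := by
      have : (168 : ℤ) = 744 - 192 * 3 := by norm_num
      rw [this]; exact Int.dvd_sub d1' (Dvd.dvd.mul_right h192 3)
    have : (24 : ℤ) = 192 - 168 := by norm_num
    rw [this]; exact Int.dvd_sub h192 h168
  have hnat : p ∣ 24 := by exact_mod_cast d24
  have hle : p ≤ 24 := Nat.le_of_dvd (by norm_num) hnat
  interval_cases p <;> first | omega | (revert hp; decide)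

end Fermat.Agent.S16.UpE4_97
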