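/-
S16, (U)-P via the `E₄`-trace identity (helper97): `M₆(SL₂(ℤ)) = ℂ · E₆` in `q`-expansion form.
-/
import Mathlib
import Fermat.Agent.S16.MillerSturm46

set_option autoImplicit false

namespace Fermat.Agent.S16.UpE4_97

open UpperHalfPlane ModularForm EisensteinSeries CongruenceSubgroup PowerSeries
open scoped MatrixGroups ModularForm

/-- A level-one form of weight `6` has `q`-expansion `a₀ · E₆`. -/
theorem qExpansion_eq_smul_E6 (F : ModularForm 𝒮ℒ 6) :
    qExpansion 1 F = (coeff 0 (qExpansion 1 F)) • qExpansion 1 E₆ := by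
  set c : ℂ := coeff 0 (qExpansion 1 F) with hc
  have hE0 : coeff 0 (qExpansion 1 E₆) = 1 := by
    rw [Fermat.Agent.S16.MillerSturm46.qExpansion_E6_eq, coeff_map,
      coeff_zero_eq_constantCoeff, Fermat.Agent.S16.MillerSturm46.constantCoeff_eisenstein6]
    simp
  have hq : qExpansion 1 (⇑((F - c • E₆ : ModularForm 𝒮ℒ 6)) : ℍ → ℂ)
      = qExpansion 1 F - c • qExpansion 1 E₆ := by
    have h1 : (⇑((F - c • E₆ : ModularForm 𝒮ℒ 6)) : ℍ → ℂ)
        = ⇑F - ⇑((c • E₆ : ModularForm 𝒮ℒ 6)) := rfl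
    rw [h1, ModularForm.qExpansion_sub one_pos one_mem_strictPeriods_SL F (c • E₆)]
    have h2 : (⇑((c • E₆ : ModularForm 𝒮ℒ 6)) : ℍ → ℂ) = c • ⇑E₆ := by
      ext z; simp
    rw [h2, ModularForm.qExpansion_smul one_pos one_mem_strictPeriods_SL c E₆]
  have hall := Fermat.Agent.S16.MillerSturm46.coeff_mem ⊥ (F - c • E₆) (by
    intro n hn
    have hn0 : n = 0 := by
      have : (6 : ℤ).toNat / 12 = 0 := by decide
      omega
    subst hn0
    rw [hq, map_sub, coeff_smul, hE0, ← hc]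
    simp)
  ext n
  have hn := hall n
  rw [hq, map_sub, AddSubgroup.mem_bot, sub_eq_zero] at hn
  exact hn

end Fermat.Agent.S16.UpE4_97
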