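/-
S16, (U)-P (`l = p`) via the `E₄`-trace identity (helper97).

For every `G ∈ M₂(Γ₀(p))` the trace of `G · E₄(pz)` to level one lies in `M₆(SL₂(ℤ)) = ℂ E₆`,
which in `q`-expansion form reads

  `p⁴ · G(q) · E₄(q^p) - U_p((U_p G) · E₄) = (p⁴ - 1) · a₀(G) · E₆`            (`TraceE4At`).

Applied to `H = 𝔼 - 24 f` (`𝔼` the Eisenstein series of level `p`, `f` an integral cusp form
congruent to `∑ σ'_p(k) q^k` modulo `p`) the coefficients of `q¹`, `q²` give `p ∣ 24`.
So `UpStmt` follows from `EisStmt` and the trace identity: no `E_{p-1}`, no von Staudt–Clausen,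
no Swinnerton-Dyer.
-/
import Mathlib
import Fermat.Agent.S16.UpE4_97.Arith
import Fermat.Agent.S16.UpE4_97.Weight6
import Fermat.Agent.S16.LemmaT99.Main
import Fermat.Agent.S16.UAsm39

set_option autoImplicit false

namespace Fermat.Agent.S16.UpE4_97

open UpperHalfPlane ModularForm EisensteinSeries CongruenceSubgroup PowerSeries ModularFormClass
open scoped MatrixGroups ModularForm
open Fermat.Agent.S16.LemmaT99 (psU psV coeff_psU coeff_psV)
open Fermat.Agent.S16.UIface39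
open Fermat.Agent.S16.UAsm39 (toMF coe_toMF qc_sub qc_smul qc_cusp_zero)

/-- The `E₄`-trace identity for one `q`-expansion `g`. -/
def TraceE4At (p : ℕ) (g : PowerSeries ℂ) : Prop :=
  (p : ℂ) ^ 4 • (g * psV p (qExpansion 1 E₄)) - psU p (psU p g * qExpansion 1 E₄)
    = (((p : ℂ) ^ 4 - 1) * coeff 0 g) • qExpansion 1 E₆

/-- The `E₄`-trace identity for all weight-2 forms of prime level (to be supplied by CONJ). -/
def TraceE4Stmt : Prop :=
  ∀ p : ℕ, p.Prime → ∀ G : ModularForm (Gamma0 p) 2, TraceE4At p (qExpansion 1 G)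

theorem coeff_E4 (n : ℕ) : coeff n (qExpansion 1 E₄) = ((c4 n : ℤ) : ℂ) := by
  rw [Fermat.Agent.S16.MillerSturm46.qExpansion_E4_eq, coeff_map]
  simp [ModularCurve.eisenstein4, c4, sig3]

theorem coeff_E6 (n : ℕ) : coeff n (qExpansion 1 E₆) = ((c6 n : ℤ) : ℂ) := by
  rw [Fermat.Agent.S16.MillerSturm46.qExpansion_E6_eq, coeff_map]
  simp [Fermat.Agent.S16.MillerSturm46.eisenstein6, c6, sig5]

/-- Integer form of one coefficient of the trace identity. -/
theorem int_identity {p : ℕ} {g : PowerSeries ℂ} (hT : TraceE4At p g) (h : ℕ → ℤ)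
    (hg : ∀ k, coeff k g = ((h k : ℤ) : ℂ)) (n : ℕ) :
    (p : ℤ) ^ 4 * (∑ x ∈ Finset.HasAntidiagonal.antidiagonal n,
        h x.1 * (if p ∣ x.2 then c4 (x.2 / p) else 0))
      - ∑ x ∈ Finset.HasAntidiagonal.antidiagonal (p * n), h (p * x.1) * c4 x.2
      = ((p : ℤ) ^ 4 - 1) * h 0 * c6 n := by
  have h1 := congrArg (coeff n) hT
  rw [map_sub, coeff_smul, coeff_smul, coeff_psU, coeff_mul, coeff_mul, coeff_E6, hg 0] at h1
  have e1 : ∑ x ∈ Finset.HasAntidiagonal.antidiagonal n, coeff x.1 g * coeff x.2 (psV p (qExpansion 1 E₄))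
      = ((∑ x ∈ Finset.HasAntidiagonal.antidiagonal n,
        h x.1 * (if p ∣ x.2 then c4 (x.2 / p) else 0) : ℤ) : ℂ) := by
    push_cast
    refine Finset.sum_congr rfl fun x _ => ?_
    rw [hg, coeff_psV]
    split_ifs
    · rw [coeff_E4]
    · simp
  have e2 : ∑ x ∈ Finset.HasAntidiagonal.antidiagonal (p * n), coeff x.1 (psU p g) * coeff x.2 (qExpansion 1 E₄)
      = ((∑ x ∈ Finset.HasAntidiagonal.antidiagonal (p * n), h (p * x.1) * c4 x.2 : ℤ) : ℂ) := by
    push_cast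
    refine Finset.sum_congr rfl fun x _ => ?_
    rw [coeff_psU, hg, coeff_E4]
  rw [e1, e2] at h1
  have h2 : (((p : ℤ) ^ 4 * (∑ x ∈ Finset.HasAntidiagonal.antidiagonal n,
        h x.1 * (if p ∣ x.2 then c4 (x.2 / p) else 0))
      - ∑ x ∈ Finset.HasAntidiagonal.antidiagonal (p * n), h (p * x.1) * c4 x.2 : ℤ) : ℂ)
      = ((((p : ℤ) ^ 4 - 1) * h 0 * c6 n : ℤ) : ℂ) := by
    push_cast
    simpa [smul_eq_mul] using h1
  exact_mod_cast h2

/-- **(U)-P**: `UpStmt` from the Eisenstein series of level `p` and the `E₄`-trace identity. -/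
theorem upStmt_of (hE : EisStmt) (hT : TraceE4Stmt) : UpStmt := by
  intro p hp hp5 f _hint hcong
  obtain ⟨E, hE0, hEk⟩ := hE p hp
  set H : ModularForm (Gamma0 p) 2 := E - (24 : ℂ) • toMF f with hH
  -- integer coefficients of `H`
  have hex : ∀ k : ℕ, ∃ m : ℤ, qCoeff (H : ℍ → ℂ) k = ((m : ℤ) : ℂ) ∧
      (k = 0 → m = (p : ℤ) - 1) ∧ (1 ≤ k → (p : ℤ) ∣ m) := by
    intro k
    rcases Nat.eq_zero_or_pos k with hk | hk
    · subst hk
      refine ⟨(p : ℤ) - 1, ?_, fun _ => rfl, fun h => absurd h (by norm_num)⟩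
      rw [hH, qc_sub, qc_smul, hE0, coe_toMF, qc_cusp_zero]
      push_cast
      ring
    · obtain ⟨c, hc⟩ := hcong k hk
      refine ⟨(p : ℤ) * (-24 * c), ?_, fun h => by omega, fun _ => Dvd.intro _ rfl⟩
      rw [hH, qc_sub, qc_smul, hEk k hk, coe_toMF, hc]
      push_cast
      ring
  choose h hh using hex
  have hg : ∀ k, coeff k (qExpansion 1 (H : ℍ → ℂ)) = ((h k : ℤ) : ℂ) := fun k => (hh k).1
  have h0 : h 0 = (p : ℤ) - 1 := (hh 0).2.1 rfl
  have hk : ∀ k, 1 ≤ k → (p : ℤ) ∣ h k := fun k hk => (hh k).2.2 hk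
  have hTH := hT p hp H
  have i1 := int_identity hTH h hg 1
  have i2 := int_identity hTH h hg 2
  rw [h0] at i1 i2
  exact false_of_identities hp hp5 h h0 hk _ _ i1 i2

end Fermat.Agent.S16.UpE4_97
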