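/-
S16, (U)-P via the `E₄`-trace identity (helper97): proof of the trace identity on top of
CONJ (helper53 `Conj53`) and level raising (helper40 `EllP40.raise`).

For `G ∈ M₂(Γ₀(p))` and a level-one form `Φ` of weight `k`, the trace of `G · Φ(pz)` to level one
has `q`-expansion  `g · V_p φ - (-p)^(-k) · U_p((U_p g) · φ)`.
For `Φ = E₄` the trace lies in `M₆(SL₂(ℤ)) = ℂ E₆`.
-/
import Mathlib
import Fermat.Agent.S16.Conj53.WeightTwo
import Fermat.Agent.S16.EllP40.LevelRaise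
import Fermat.Agent.S16.UpE4_97.Main

set_option autoImplicit false

namespace Fermat.Agent.S16.UpE4_97

open UpperHalfPlane ModularForm EisensteinSeries CongruenceSubgroup PowerSeries ModularGroup
open scoped MatrixGroups ModularForm
open Fermat.Agent.S16.LemmaT99 (psU psV coeff_psU coeff_psV)
open Fermat.Agent.S16.Conj53 (gS bS fW esymmForm)
open Fermat.Agent.S16.EllP40 (raise restr)

variable {p : ℕ} [hp : Fact p.Prime] {k : ℤ}

omit hp in
/-- A level-one form is invariant under `S`. -/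
theorem gS_restr (Φ : ModularForm 𝒮ℒ k) : gS (restr p Φ) = (Φ : ℍ → ℂ) := by
  unfold gS
  rw [Fermat.Agent.S16.EllP40.coe_restr, ModularForm.SL_slash]
  exact Φ.slash_action_eq' _ ⟨S, rfl⟩

/-- `Φ(pz)` is the Fricke transform of `Φ`. -/
theorem raise_eq_fW (Φ : ModularForm 𝒮ℒ k) : raise p Φ = fW (restr p Φ) := by
  ext z
  rw [Fermat.Agent.S16.EllP40.raise_apply, Fermat.Agent.S16.Conj53.fW_apply, gS_restr]

/-- The `q^(1/p)`-coefficients of `Φ(pz) ∣ S` are `(-p)^(-k) a_m(Φ)`. -/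
theorem bS_raise (Φ : ModularForm 𝒮ℒ k) (m : ℕ) :
    bS (raise p Φ) m = (-(p : ℂ)) ^ (-k) * coeff m (qExpansion 1 Φ) := by
  rw [raise_eq_fW, Fermat.Agent.S16.Conj53.bS_fW, Fermat.Agent.S16.EllP40.restr_qExpansion]

/-- `(f g) ∣ S = (f ∣ S)(g ∣ S)`. -/
theorem gS_mul {k₁ k₂ : ℤ} (f : ModularForm (Gamma0 p) k₁) (g : ModularForm (Gamma0 p) k₂) :
    gS (f.mul g) = gS f * gS g := by
  unfold gS
  rw [ModularForm.coe_mul]
  exact ModularForm.mul_slash_SL2 k₁ k₂ S f g

theorem analyticAt_gS {k₁ : ℤ} (f : ModularForm (Gamma0 p) k₁) :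
    AnalyticAt ℂ (cuspFunction (p : ℝ) (gS f)) 0 :=
  UpperHalfPlane.analyticAt_cuspFunction_zero (by exact_mod_cast hp.out.pos)
    (Fermat.Agent.S16.Conj53.gS_periodic f) (Fermat.Agent.S16.Conj53.gS_mdiff f)
    (Fermat.Agent.S16.Conj53.gS_bdd f)

/-- Cauchy product for the `q^(1/p)`-coefficients of `(f g) ∣ S`. -/
theorem bS_mul {k₁ k₂ : ℤ} (f : ModularForm (Gamma0 p) k₁) (g : ModularForm (Gamma0 p) k₂)
    (m : ℕ) :
    bS (f.mul g) m = ∑ x ∈ Finset.HasAntidiagonal.antidiagonal m, bS f x.1 * bS g x.2 := by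
  unfold bS
  rw [gS_mul, UpperHalfPlane.qExpansion_mul (analyticAt_gS f) (analyticAt_gS g), coeff_mul]

/-- `q`-expansion of `Φ(pz)`. -/
theorem qExpansion_raise (Φ : ModularForm 𝒮ℒ k) :
    qExpansion 1 (raise p Φ) = psV p (qExpansion 1 Φ) := by
  ext n
  rw [Fermat.Agent.S16.EllP40.raise_qExpansion_coeff, coeff_psV]

/-- **General trace formula**: the `q`-expansion of the trace of `G · Φ(pz)` to level one. -/
theorem qExpansion_trace_mul_raise (G : ModularForm (Gamma0 p) 2) (Φ : ModularForm 𝒮ℒ k) :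
    qExpansion 1 (esymmForm (G.mul (raise p Φ)) 1)
      = qExpansion 1 G * psV p (qExpansion 1 Φ)
        - (-(p : ℂ)) ^ (-k) • psU p (psU p (qExpansion 1 G) * qExpansion 1 Φ) := by
  have hp0 : (p : ℂ) ≠ 0 := by exact_mod_cast hp.out.ne_zero
  ext n
  rw [Fermat.Agent.S16.Conj53.qExpansion_esymmForm_one_coeff, bS_mul,
    ModularForm.qExpansion_mul one_pos (CongruenceSubgroup.one_mem_strictPeriods_Gamma0 p),
    qExpansion_raise, map_sub, coeff_smul, coeff_psU, coeff_mul (p * n), Finset.mul_sum,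
    sub_eq_add_neg, smul_eq_mul, Finset.mul_sum, ← Finset.sum_neg_distrib]
  congr 1
  refine Finset.sum_congr rfl fun x _ => ?_
  rw [Fermat.Agent.S16.Conj53.bS_weight_two, bS_raise, coeff_psU]
  field_simp

/-- The trace of `G · E₄(pz)`, as a level-one form of weight `6`. -/
noncomputable def trE4 (G : ModularForm (Gamma0 p) 2) : ModularForm 𝒮ℒ 6 :=
  ModularForm.mcast (by norm_num) (esymmForm (G.mul (raise p E₄)) 1)

theorem qExpansion_trE4 (G : ModularForm (Gamma0 p) 2) :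
    qExpansion 1 (trE4 G)
      = qExpansion 1 G * psV p (qExpansion 1 E₄)
        - ((p : ℂ) ^ 4)⁻¹ • psU p (psU p (qExpansion 1 G) * qExpansion 1 E₄) := by
  unfold trE4
  rw [ModularForm.qExpansion_mcast, qExpansion_trace_mul_raise]
  congr 2
  rw [zpow_neg, show ((4 : ℤ)) = ((4 : ℕ) : ℤ) by norm_num, zpow_natCast]
  congr 1
  ring

/-- **The `E₄`-trace identity.** -/
theorem traceE4At (G : ModularForm (Gamma0 p) 2) : TraceE4At p (qExpansion 1 G) := by
  have hp0 : (p : ℂ) ≠ 0 := by exact_mod_cast hp.out.ne_zero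
  have hp4 : (p : ℂ) ^ 4 ≠ 0 := pow_ne_zero _ hp0
  have h6 := qExpansion_eq_smul_E6 (trE4 G)
  have hq := qExpansion_trE4 G
  unfold TraceE4At
  set g := qExpansion 1 (G : ℍ → ℂ) with hg
  set e4 := qExpansion 1 (E₄ : ℍ → ℂ) with he4
  have he40 : coeff 0 e4 = 1 := by
    rw [he4, coeff_E4]; simp [c4]
  have hc0 : coeff 0 (qExpansion 1 (trE4 G)) = coeff 0 g - ((p : ℂ) ^ 4)⁻¹ * coeff 0 g := by
    rw [hq, map_sub, coeff_smul, coeff_psU, mul_zero, coeff_mul, coeff_mul,
      Finset.Nat.antidiagonal_zero, Finset.sum_singleton, Finset.sum_singleton, coeff_psU,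
      coeff_psV, mul_zero, smul_eq_mul]
    simp [he40]
  rw [hc0, hq] at h6
  have h7 := congrArg (fun x => (p : ℂ) ^ 4 • x) h6
  simp only [smul_sub, smul_smul] at h7
  rw [mul_inv_cancel₀ hp4, one_smul] at h7
  rw [h7]
  congr 1
  field_simp

theorem traceE4Stmt : TraceE4Stmt := by
  intro p hp G
  have : Fact p.Prime := ⟨hp⟩
  exact traceE4At G

/-- **(U)-P**, final form: `UpStmt` from the Eisenstein series alone. -/
theorem upStmt (hE : Fermat.Agent.S16.UIface39.EisStmt) : Fermat.Agent.S16.UIface39.UpStmt :=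
  upStmt_of hE traceE4Stmt

end Fermat.Agent.S16.UpE4_97
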